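import Mathlib

/-!
# S56 / TW-VAN: the counting lemma ("Dickson-lite")

A finite group `Γ` acting on a finite set `X` such that every `g ≠ 1` has exactly one fixed point
(and then `g ^ p = 1`) or exactly two fixed points (and then `p ∤ orderOf g`), such that the
`p`-elements fixing a point form a subgroup, and without global fixed point.  For a nontrivial
Sylow `p`-subgroup `P` with `q = #P` and its fixed point `x₀`, `B = Stab x₀`:
`q (q - 1) ≤ 2 #B` and `#B ≤ q (q - 1)`.

Mathlib only.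
-/

set_option autoImplicit false
set_option linter.unusedSectionVars false
set_option linter.style.haveILetI false

open scoped Classical

namespace Fermat.Agent.S56T

variable {Γ X : Type*} [Group Γ] [Fintype Γ] [Fintype X] [MulAction Γ X]

/-- the fixed points of `g` -/
noncomputable def h82t_fix (X : Type*) [Fintype X] [MulAction Γ X] (g : Γ) : Finset X :=
  Finset.univ.filter (fun x => g • x = x)

theorem h82t_mem_fix {g : Γ} {x : X} : x ∈ h82t_fix X g ↔ g • x = x := by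
  simp [h82t_fix]

/-- hypotheses of the counting lemma -/
structure H82tAct (Γ X : Type*) [Group Γ] [Fintype Γ] [Fintype X] [MulAction Γ X] (p : ℕ) :
    Prop where
  fix : ∀ g : Γ, g ≠ 1 → ((h82t_fix X g).card = 1 ∧ g ^ p = 1) ∨
      ((h82t_fix X g).card = 2 ∧ ¬ p ∣ orderOf g)
  unip : ∀ (x : X) (g h : Γ), g • x = x → h • x = x → g ^ p = 1 → h ^ p = 1 → (g * h) ^ p = 1
  irr : ∀ x : X, ∃ g : Γ, g • x ≠ x

variable {p : ℕ} [hp : Fact p.Prime]

/-- the `p`-elements fixing `x` -/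
def h82t_U (h : H82tAct Γ X p) (x : X) : Subgroup Γ where
  carrier := {g | g • x = x ∧ g ^ p = 1}
  one_mem' := by simp
  mul_mem' := by
    rintro a b ⟨ha, ha'⟩ ⟨hb, hb'⟩
    exact ⟨by rw [mul_smul, hb, ha], h.unip x a b ha hb ha' hb'⟩
  inv_mem' := by
    rintro a ⟨ha, ha'⟩
    refine ⟨by rw [inv_smul_eq_iff, ha], by rw [inv_pow, ha', inv_one]⟩

theorem h82t_mem_U (h : H82tAct Γ X p) {x : X} {g : Γ} :
    g ∈ h82t_U h x ↔ g • x = x ∧ g ^ p = 1 := Iff.rfl

theorem h82t_U_isPGroup (h : H82tAct Γ X p) (x : X) : IsPGroup p (h82t_U h x) := by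
  intro g
  refine ⟨1, ?_⟩
  ext
  simpa using g.2.2

/-- a nontrivial `p`-element has exactly one fixed point -/
theorem h82t_card_fix_of_pow (h : H82tAct Γ X p) {g : Γ} (hg : g ≠ 1) (hgp : g ^ p = 1) :
    (h82t_fix X g).card = 1 := by
  rcases h.fix g hg with h1 | h2
  · exact h1.1
  · exfalso
    apply h2.2
    have : orderOf g ∣ p := orderOf_dvd_of_pow_eq_one hgp
    rcases (Nat.dvd_prime hp.out).1 this with h1 | h1
    · exact absurd (orderOf_eq_one_iff.1 h1) hg
    · rw [h1]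

theorem h82t_card_fix_of_not_pow (h : H82tAct Γ X p) {g : Γ} (hgp : g ^ p ≠ 1) :
    (h82t_fix X g).card = 2 := by
  have hg : g ≠ 1 := by
    rintro rfl
    exact hgp (one_pow _)
  rcases h.fix g hg with h1 | h2
  · exact absurd h1.2 hgp
  · exact h2.1

/-- an element of a `p`-group which is not `1` satisfies `g ^ p = 1` -/
theorem h82t_pow_eq_one_of_pgroup (h : H82tAct Γ X p) {Q : Subgroup Γ} (hQ : IsPGroup p Q)
    {g : Γ} (hg : g ∈ Q) : g ^ p = 1 := by
  by_cases h1 : g = 1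
  · rw [h1, one_pow]
  rcases h.fix g h1 with h2 | h2
  · exact h2.2
  · exfalso
    obtain ⟨k, hk⟩ := hQ ⟨g, hg⟩
    have hk' : g ^ p ^ k = 1 := by
      have := congrArg Subtype.val hk
      simpa using this
    have hord : orderOf g ∣ p ^ k := orderOf_dvd_of_pow_eq_one hk'
    obtain ⟨j, -, hj⟩ := (Nat.dvd_prime_pow hp.out).1 hord
    rcases Nat.eq_zero_or_pos j with rfl | hjpos
    · rw [pow_zero] at hj
      exact h1 (orderOf_eq_one_iff.1 hj)
    · apply h2.2
      rw [hj]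
      exact dvd_pow_self p hjpos.ne'

theorem h82t_smul_U (h : H82tAct Γ X p) (x : X) (g u : Γ) :
    u ∈ h82t_U h x ↔ g * u * g⁻¹ ∈ h82t_U h (g • x) := by
  simp only [h82t_mem_U]
  constructor
  · rintro ⟨h1, h2⟩
    refine ⟨by rw [mul_smul, inv_smul_smul, mul_smul, h1], ?_⟩
    rw [conj_pow, h2, mul_one, mul_inv_cancel]
  · rintro ⟨h1, h2⟩
    refine ⟨?_, ?_⟩
    · rw [mul_smul, inv_smul_smul, mul_smul] at h1
      exact smul_left_cancel g h1
    · rw [conj_pow] at h2
      have := congrArg (fun z => g⁻¹ * z * g) h2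
      simpa [mul_assoc] using this


/-- a nontrivial Sylow subgroup has a fixed point -/
theorem h82t_exists_fixed (h : H82tAct Γ X p) (P : Sylow p Γ) (hP : (P : Subgroup Γ) ≠ ⊥) :
    ∃ x₀ : X, ∀ g ∈ P, g • x₀ = x₀ := by
  haveI : Nontrivial (P : Subgroup Γ) := (Subgroup.nontrivial_iff_ne_bot _).2 hP
  haveI := IsPGroup.center_nontrivial P.2
  obtain ⟨z, hz1⟩ := exists_ne (1 : Subgroup.center (P : Subgroup Γ))
  have hzΓ : ((z.1 : (P : Subgroup Γ)) : Γ) ≠ 1 := by
    intro h0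
    apply hz1
    ext
    exact h0
  have hzp : ((z.1 : (P : Subgroup Γ)) : Γ) ^ p = 1 :=
    h82t_pow_eq_one_of_pgroup h P.2 z.1.2
  have hcard := h82t_card_fix_of_pow h hzΓ hzp
  obtain ⟨x₀, hx₀⟩ := Finset.card_eq_one.1 hcard
  refine ⟨x₀, fun g hg => ?_⟩
  have hcomm : (⟨g, hg⟩ : (P : Subgroup Γ)) * z.1 = z.1 * ⟨g, hg⟩ :=
    Subgroup.mem_center_iff.1 z.2 ⟨g, hg⟩
  have hcommΓ : g * (z.1 : (P : Subgroup Γ)) = ((z.1 : (P : Subgroup Γ)) : Γ) * g :=
    congrArg Subtype.val hcomm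
  have hx₀' : ((z.1 : (P : Subgroup Γ)) : Γ) • x₀ = x₀ :=
    h82t_mem_fix.1 (by rw [hx₀]; exact Finset.mem_singleton_self _)
  have : g • x₀ ∈ h82t_fix X ((z.1 : (P : Subgroup Γ)) : Γ) := by
    rw [h82t_mem_fix, ← mul_smul, ← hcommΓ, mul_smul, hx₀']
  rw [hx₀, Finset.mem_singleton] at this
  exact this

theorem h82t_U_eq (h : H82tAct Γ X p) (P : Sylow p Γ) {x₀ : X}
    (hx₀ : ∀ g ∈ P, g • x₀ = x₀) : h82t_U h x₀ = P := by
  apply P.is_maximal' (h82t_U_isPGroup h x₀)
  intro g hg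
  exact ⟨hx₀ g hg, h82t_pow_eq_one_of_pgroup h P.2 hg⟩

/-- a point fixed by a nontrivial `p`-element lies in the orbit of `x₀` -/
theorem h82t_mem_orbit (h : H82tAct Γ X p) (P : Sylow p Γ) {x₀ : X}
    (hx₀ : ∀ g ∈ P, g • x₀ = x₀) {x : X} {u : Γ} (hu1 : u ≠ 1) (hup : u ^ p = 1)
    (hux : u • x = x) : x ∈ MulAction.orbit Γ x₀ := by
  obtain ⟨Q, hQ⟩ := (h82t_U_isPGroup h x).exists_le_sylow
  obtain ⟨g, hg⟩ := MulAction.exists_smul_eq Γ P Q
  have huQ : u ∈ Q := hQ ⟨hux, hup⟩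
  have huQ' : g⁻¹ * u * g ∈ (P : Subgroup Γ) := by
    rw [← hg] at huQ
    have h3 : u ∈ ((g • P : Sylow p Γ) : Subgroup Γ) := huQ
    rw [Sylow.coe_subgroup_smul, Subgroup.mem_pointwise_smul_iff_inv_smul_mem] at h3
    simpa [MulAut.smul_def, MulAut.conj_inv_apply] using h3
  have h1 := hx₀ _ huQ'
  have h2 : u • (g • x₀) = g • x₀ := by
    have := congrArg (fun y => g • y) h1
    simpa [mul_smul] using this
  have hcard := h82t_card_fix_of_pow h hu1 hup
  obtain ⟨y, hy⟩ := Finset.card_eq_one.1 hcard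
  have e1 : x = y := by
    have : x ∈ h82t_fix X u := h82t_mem_fix.2 hux
    rwa [hy, Finset.mem_singleton] at this
  have e2 : g • x₀ = y := by
    have : g • x₀ ∈ h82t_fix X u := h82t_mem_fix.2 h2
    rwa [hy, Finset.mem_singleton] at this
  rw [e1, ← e2]
  exact MulAction.mem_orbit _ _

/-! ### counting functions -/

/-- number of nontrivial elements fixing `x` -/
noncomputable def h82t_c (Γ : Type*) [Group Γ] [Fintype Γ] {X : Type*} [MulAction Γ X] (x : X) : ℕ :=
  (Finset.univ.filter (fun g : Γ => g ≠ 1 ∧ g • x = x)).card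

/-- number of nontrivial `p`-elements fixing `x` -/
noncomputable def h82t_u (Γ : Type*) [Group Γ] [Fintype Γ] {X : Type*} [MulAction Γ X] (p : ℕ)
    (x : X) : ℕ :=
  (Finset.univ.filter (fun g : Γ => (g ≠ 1 ∧ g ^ p = 1) ∧ g • x = x)).card

theorem h82t_c_add_one (x : X) : h82t_c Γ x + 1 = Nat.card (MulAction.stabilizer Γ x) := by
  have h1 : Nat.card (MulAction.stabilizer Γ x) =
      (Finset.univ.filter (fun g : Γ => g • x = x)).card := by
    rw [Nat.card_eq_fintype_card, Fintype.card_subtype]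
    rfl
  have h2 : (Finset.univ.filter (fun g : Γ => g • x = x)) =
      insert 1 (Finset.univ.filter (fun g : Γ => g ≠ 1 ∧ g • x = x)) := by
    ext g
    simp only [Finset.mem_filter, Finset.mem_univ, true_and, Finset.mem_insert]
    constructor
    · intro hg
      by_cases h0 : g = 1
      · exact Or.inl h0
      · exact Or.inr ⟨h0, hg⟩
    · rintro (rfl | ⟨-, hg⟩)
      · exact one_smul _ _
      · exact hg
  rw [h1, h2, Finset.card_insert_of_notMem]
  · rfl
  · simp

theorem h82t_u_add_one (h : H82tAct Γ X p) (x : X) :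
    h82t_u Γ p x + 1 = Nat.card (h82t_U h x) := by
  have h1 : Nat.card (h82t_U h x) =
      (Finset.univ.filter (fun g : Γ => g • x = x ∧ g ^ p = 1)).card := by
    rw [Nat.card_eq_fintype_card, Fintype.card_subtype]
    exact congrArg Finset.card (Finset.filter_congr fun g _ => h82t_mem_U h)
  have h2 : (Finset.univ.filter (fun g : Γ => g • x = x ∧ g ^ p = 1)) =
      insert 1 (Finset.univ.filter (fun g : Γ => (g ≠ 1 ∧ g ^ p = 1) ∧ g • x = x)) := by
    ext g
    simp only [Finset.mem_filter, Finset.mem_univ, true_and, Finset.mem_insert]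
    constructor
    · rintro ⟨hg, hg'⟩
      by_cases h0 : g = 1
      · exact Or.inl h0
      · exact Or.inr ⟨⟨h0, hg'⟩, hg⟩
    · rintro (rfl | ⟨⟨-, hg'⟩, hg⟩)
      · exact ⟨one_smul _ _, one_pow _⟩
      · exact ⟨hg, hg'⟩
  rw [h1, h2, Finset.card_insert_of_notMem]
  · rfl
  · simp

theorem h82t_c_smul (g : Γ) (x : X) : h82t_c Γ (g • x) = h82t_c Γ x := by
  have h1 := h82t_c_add_one (Γ := Γ) (g • x)
  have h2 := h82t_c_add_one (Γ := Γ) x
  have h3 : Nat.card (MulAction.stabilizer Γ (g • x)) = Nat.card (MulAction.stabilizer Γ x) := by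
    rw [MulAction.stabilizer_smul_eq_stabilizer_map_conj]
    exact Nat.card_congr
      ((MulAction.stabilizer Γ x).equivMapOfInjective _ (MulAut.conj g).injective).symm.toEquiv
  omega

/-- the double count -/
theorem h82t_double_count (h : H82tAct Γ X p) :
    ∑ x : X, h82t_c Γ x + ∑ x : X, h82t_u Γ p x + 2 = 2 * Fintype.card Γ := by
  have e1 : ∑ x : X, h82t_c Γ x =
      ∑ g : Γ, if g ≠ 1 then (h82t_fix X g).card else 0 := by
    simp only [h82t_c, h82t_fix, Finset.card_filter]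
    rw [Finset.sum_comm]
    refine Finset.sum_congr rfl fun g _ => ?_
    by_cases hg : g = 1
    · simp [hg]
    · simp [hg]
  have e2 : ∑ x : X, h82t_u Γ p x =
      ∑ g : Γ, if g ≠ 1 ∧ g ^ p = 1 then (h82t_fix X g).card else 0 := by
    simp only [h82t_u, h82t_fix, Finset.card_filter]
    rw [Finset.sum_comm]
    refine Finset.sum_congr rfl fun g _ => ?_
    by_cases hg : g ≠ 1 ∧ g ^ p = 1
    · simp [hg]
    · simp [hg]
  rw [e1, e2, ← Finset.sum_add_distrib]
  have e3 : ∀ g : Γ, ((if g ≠ 1 then (h82t_fix X g).card else 0) +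
      if g ≠ 1 ∧ g ^ p = 1 then (h82t_fix X g).card else 0) = if g = 1 then 0 else 2 := by
    intro g
    by_cases hg : g = 1
    · simp [hg]
    · by_cases hgp : g ^ p = 1
      · simp [hg, hgp, h82t_card_fix_of_pow h hg hgp]
      · simp [hg, hgp, h82t_card_fix_of_not_pow h hgp]
  simp only [e3]
  rw [Finset.sum_ite, Finset.sum_const_zero, Finset.sum_const, zero_add, smul_eq_mul]
  have e4 : (Finset.univ.filter (fun g : Γ => ¬ g = 1)).card + 1 = Fintype.card Γ := by
    rw [Finset.filter_not, Finset.card_sdiff_of_subset (Finset.subset_univ _)]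
    have : (Finset.univ.filter (fun g : Γ => g = 1)).card = 1 := by
      rw [Finset.card_eq_one]
      exact ⟨1, by ext; simp⟩
    rw [this, Finset.card_univ]
    have := Fintype.card_pos (α := Γ)
    omega
  omega


/-- the orbit of `x` as a finset -/
noncomputable def h82t_Om (Γ : Type*) [Group Γ] {X : Type*} [Fintype X] [MulAction Γ X] (x : X) :
    Finset X :=
  Finset.univ.filter (fun y => y ∈ MulAction.orbit Γ x)

theorem h82t_mem_Om {x y : X} : y ∈ h82t_Om Γ x ↔ y ∈ MulAction.orbit Γ x := by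
  simp [h82t_Om]

theorem h82t_card_Om (x : X) :
    (h82t_Om Γ x).card * (h82t_c Γ x + 1) = Fintype.card Γ := by
  rw [h82t_c_add_one]
  have h1 := MulAction.card_orbit_mul_card_stabilizer_eq_card_group Γ x
  have h2 : Fintype.card (MulAction.orbit Γ x) = (h82t_Om Γ x).card := by
    rw [Fintype.card_subtype]
    rfl
  rw [Nat.card_eq_fintype_card, ← h2]
  convert h1

theorem h82t_sum_Om (x : X) :
    ∑ y ∈ h82t_Om Γ x, h82t_c Γ y + (h82t_Om Γ x).card = Fintype.card Γ := by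
  have h1 : ∀ y ∈ h82t_Om Γ x, h82t_c Γ y = h82t_c Γ x := by
    intro y hy
    obtain ⟨g, rfl⟩ := h82t_mem_Om.1 hy
    exact h82t_c_smul g x
  rw [Finset.sum_congr rfl h1, Finset.sum_const, smul_eq_mul, ← h82t_card_Om x]
  ring

theorem h82t_Om_disjoint {x y : X} (hxy : y ∉ MulAction.orbit Γ x) :
    Disjoint (h82t_Om Γ x) (h82t_Om Γ y) := by
  rw [Finset.disjoint_left]
  intro z hz hz'
  rw [h82t_mem_Om] at hz hz'
  apply hxy
  rw [← MulAction.orbit_eq_iff] at hz hz' ⊢
  rw [← hz', hz]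

theorem h82t_u_smul (h : H82tAct Γ X p) (g : Γ) (x : X) :
    h82t_u Γ p (g • x) = h82t_u Γ p x := by
  have h1 := h82t_u_add_one h (g • x)
  have h2 := h82t_u_add_one h x
  have h3 : Nat.card (h82t_U h (g • x)) = Nat.card (h82t_U h x) := by
    refine Nat.card_congr ?_
    refine ⟨fun u => ⟨g⁻¹ * u.1 * g, ?_⟩, fun u => ⟨g * u.1 * g⁻¹, ?_⟩, ?_, ?_⟩
    · rw [h82t_smul_U h x g]
      have : g * (g⁻¹ * u.1 * g) * g⁻¹ = u.1 := by group
      rw [this]
      exact u.2
    · exact (h82t_smul_U h x g u.1).1 u.2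
    · intro u
      ext
      simp only
      group
    · intro u
      ext
      simp only
      group
  omega

theorem h82t_arith (q d n m e : ℕ) (hq2 : 2 ≤ q) (hn2 : 2 ≤ n) (hd1 : 1 ≤ d)
    (hm1 : m + 2 * n = n * q + 2) (hme : m * e = n * (q * d)) : q - 1 ≤ 2 * d := by
  by_contra hcon
  have hq' : 2 * d + 2 ≤ q := by omega
  have h0 : n * (2 * d + 2) ≤ n * q := Nat.mul_le_mul_left n hq'
  have h0' : n * 2 ≤ n * q := Nat.mul_le_mul_left n hq2
  have hmlt : m < n * q := by omega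
  have hed : d < e := by
    by_contra hcon2
    have hcon2' : e ≤ d := by omega
    have h1 : m * e ≤ m * d := Nat.mul_le_mul_left m hcon2'
    have h3 : m * d < n * q * d := Nat.mul_lt_mul_of_pos_right hmlt hd1
    have h4 : n * q * d = n * (q * d) := by ring
    omega
  have h4 : m * (d + 1) ≤ m * e := Nat.mul_le_mul_left m hed
  have h5 : (m + 2 * n) * (d + 1) = (n * q + 2) * (d + 1) := by rw [hm1]
  have h6 : m * (d + 1) + 2 * (n * d) + 2 * n = n * (q * d) + n * q + 2 * d + 2 := by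
    have : (m + 2 * n) * (d + 1) = m * (d + 1) + 2 * (n * d) + 2 * n := by ring
    have : (n * q + 2) * (d + 1) = n * (q * d) + n * q + 2 * d + 2 := by ring
    omega
  have h7 : n * (2 * d + 2) = 2 * (n * d) + 2 * n := by ring
  omega

set_option maxHeartbeats 800000 in
/-- **the counting lemma**: `q (q - 1) ≤ 2 #B`. -/
theorem h82t_count (h : H82tAct Γ X p) (P : Sylow p Γ) (hP : (P : Subgroup Γ) ≠ ⊥) {x₀ : X}
    (hx₀ : ∀ g ∈ P, g • x₀ = x₀) :
    Nat.card P * (Nat.card P - 1) ≤ 2 * Nat.card (MulAction.stabilizer Γ x₀) := by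
  have hU := h82t_U_eq h P hx₀
  -- notation
  set q := Nat.card P with hq
  set n := (h82t_Om Γ x₀).card with hn
  have hPle : (P : Subgroup Γ) ≤ MulAction.stabilizer Γ x₀ := fun g hg => hx₀ g hg
  have hqB : q ∣ Nat.card (MulAction.stabilizer Γ x₀) := Subgroup.card_dvd_of_le hPle
  obtain ⟨d, hd⟩ := hqB
  have hB := h82t_c_add_one (Γ := Γ) x₀
  have hq2 : 2 ≤ q := by
    have : Nontrivial (P : Subgroup Γ) := (Subgroup.nontrivial_iff_ne_bot _).2 hP
    have h1 : 1 < Nat.card (P : Subgroup Γ) := Finite.one_lt_card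
    exact h1
  have hnB : n * (q * d) = (Fintype.card Γ) := by
    rw [← hd, ← hB]
    exact h82t_card_Om x₀
  have hn2 : 2 ≤ n := by
    obtain ⟨g, hg⟩ := h.irr x₀
    have h1 : x₀ ∈ h82t_Om Γ x₀ := h82t_mem_Om.2 (MulAction.mem_orbit_self _)
    have h2 : g • x₀ ∈ h82t_Om Γ x₀ := h82t_mem_Om.2 (MulAction.mem_orbit _ _)
    have h3 : ({x₀, g • x₀} : Finset X) ⊆ h82t_Om Γ x₀ := by
      intro y hy
      rcases Finset.mem_insert.1 hy with rfl | hy
      · exact h1
      · rw [Finset.mem_singleton] at hy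
        rw [hy]
        exact h2
    have h4 := Finset.card_le_card h3
    rw [Finset.card_pair (Ne.symm hg)] at h4
    exact h4
  have hd1 : 1 ≤ d := by
    rcases Nat.eq_zero_or_pos d with rfl | h1
    · rw [mul_zero] at hd
      have := Nat.card_pos (α := MulAction.stabilizer Γ x₀)
      omega
    · exact h1
  -- the u-sum
  have hu_in : ∀ x ∈ h82t_Om Γ x₀, h82t_u Γ p x + 1 = q := by
    intro x hx
    obtain ⟨g, rfl⟩ := h82t_mem_Om.1 hx
    rw [h82t_u_smul h, h82t_u_add_one h, hU]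
  have hu_out : ∀ x ∈ (h82t_Om Γ x₀)ᶜ, h82t_u Γ p x = 0 := by
    intro x hx
    rw [Finset.mem_compl, h82t_mem_Om] at hx
    rw [h82t_u, Finset.card_eq_zero, Finset.filter_eq_empty_iff]
    rintro u - ⟨⟨hu1, hup⟩, hux⟩
    exact hx (h82t_mem_orbit h P hx₀ hu1 hup hux)
  have hsum_u : ∑ x : X, h82t_u Γ p x + n = n * q := by
    rw [← Finset.sum_add_sum_compl (h82t_Om Γ x₀), Finset.sum_eq_zero hu_out, add_zero]
    have : ∀ x ∈ h82t_Om Γ x₀, h82t_u Γ p x = q - 1 := fun x hx => by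
      have := hu_in x hx
      omega
    rw [Finset.sum_congr rfl this, Finset.sum_const, smul_eq_mul]
    have : n * (q - 1) + n = n * q := by
      have : q = (q - 1) + 1 := by omega
      conv_rhs => rw [this]
      ring
    exact this
  -- the c-sum
  set R := ∑ x ∈ (h82t_Om Γ x₀)ᶜ, h82t_c Γ x with hR
  have hsum_c : ∑ x : X, h82t_c Γ x + n = (Fintype.card Γ) + R := by
    rw [← Finset.sum_add_sum_compl (h82t_Om Γ x₀), ← hR]
    have := h82t_sum_Om (Γ := Γ) x₀
    omega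
  have hdc := h82t_double_count (X := X) h
  have hmain : R + n * q + 2 = (Fintype.card Γ) + 2 * n := by omega
  have hNq : n * q ≤ (Fintype.card Γ) := by
    rw [← hnB, ← mul_assoc]
    exact Nat.le_mul_of_pos_right _ hd1
  -- a non-free orbit outside
  have hRpos : 0 < R := by omega
  obtain ⟨x₁, hx₁, hc₁⟩ : ∃ x ∈ (h82t_Om Γ x₀)ᶜ, 0 < h82t_c Γ x := by
    by_contra hcon
    push Not at hcon
    have : R = 0 := Finset.sum_eq_zero fun x hx => Nat.le_zero.1 (hcon x hx)
    omega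
  have hx₁' : x₁ ∉ MulAction.orbit Γ x₀ := by
    rw [Finset.mem_compl, h82t_mem_Om] at hx₁
    exact hx₁
  have hO₁ : h82t_Om Γ x₁ ⊆ (h82t_Om Γ x₀)ᶜ := by
    intro y hy
    rw [Finset.mem_compl]
    intro hy'
    exact Finset.disjoint_left.1 (h82t_Om_disjoint hx₁') hy' hy
  have hcard₁ := h82t_card_Om (Γ := Γ) x₁
  have hsum₁ := h82t_sum_Om (Γ := Γ) x₁
  have hrest : ∀ x ∈ (h82t_Om Γ x₀)ᶜ, x ∉ h82t_Om Γ x₁ → h82t_c Γ x = 0 := by
    intro x₂ hx₂ hx₂O
    by_contra hc₂
    have hc₂' : 0 < h82t_c Γ x₂ := Nat.pos_of_ne_zero hc₂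
    have hx₂' : x₂ ∉ MulAction.orbit Γ x₀ := by
      rw [Finset.mem_compl, h82t_mem_Om] at hx₂
      exact hx₂
    have hO₂ : h82t_Om Γ x₂ ⊆ (h82t_Om Γ x₀)ᶜ := by
      intro y hy
      rw [Finset.mem_compl]
      intro hy'
      exact Finset.disjoint_left.1 (h82t_Om_disjoint hx₂') hy' hy
    have hdisj : Disjoint (h82t_Om Γ x₁) (h82t_Om Γ x₂) :=
      h82t_Om_disjoint (fun hh => hx₂O (h82t_mem_Om.2 hh))
    have hcard₂ := h82t_card_Om (Γ := Γ) x₂
    have hsum₂ := h82t_sum_Om (Γ := Γ) x₂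
    have hle : ∑ y ∈ h82t_Om Γ x₁, h82t_c Γ y + ∑ y ∈ h82t_Om Γ x₂, h82t_c Γ y ≤ R := by
      rw [← Finset.sum_union hdisj]
      exact Finset.sum_le_sum_of_subset (Finset.union_subset hO₁ hO₂)
    have h1 : 2 * (h82t_Om Γ x₁).card ≤ (Fintype.card Γ) := by
      rw [← hcard₁, mul_comm]
      exact Nat.mul_le_mul_left _ (by omega)
    have h2 : 2 * (h82t_Om Γ x₂).card ≤ (Fintype.card Γ) := by
      rw [← hcard₂, mul_comm]
      exact Nat.mul_le_mul_left _ (by omega)
    have h3 : n * 2 ≤ n * q := Nat.mul_le_mul_left n hq2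
    omega
  have hReq : R = ∑ y ∈ h82t_Om Γ x₁, h82t_c Γ y :=
    (Finset.sum_subset hO₁ hrest).symm
  -- arithmetic
  set m := (h82t_Om Γ x₁).card with hm
  set e := h82t_c Γ x₁ + 1 with he
  have hm1 : m + 2 * n = n * q + 2 := by omega
  have hme : m * e = n * (q * d) := by rw [hnB]; exact hcard₁
  have he2 : 2 ≤ e := by omega
  rw [hd]
  -- goal: q * (q - 1) ≤ 2 * (q * d)
  have hgoal : q - 1 ≤ 2 * d := h82t_arith q d n m e hq2 hn2 hd1 hm1 hme
  calc q * (q - 1) ≤ q * (2 * d) := Nat.mul_le_mul_left q hgoal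
    _ = 2 * (q * d) := by ring


/-- the centraliser in `B` of a nontrivial element of `P` lies in `P` -/
theorem h82t_centralizer_le (h : H82tAct Γ X p) (P : Sylow p Γ) {x₀ : X}
    (hx₀ : ∀ g ∈ P, g • x₀ = x₀) {u : Γ} (hu : u ∈ P) (hu1 : u ≠ 1) {g : Γ}
    (hg : g • x₀ = x₀) (hgu : g * u = u * g) : g ∈ P := by
  have hU := h82t_U_eq h P hx₀
  by_cases hg1 : g = 1
  · rw [hg1]
    exact one_mem _
  rcases h.fix g hg1 with ⟨-, hgp⟩ | ⟨hcard, -⟩
  · have : g ∈ h82t_U h x₀ := ⟨hg, hgp⟩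
    rw [hU] at this
    exact this
  · exfalso
    have hup : u ^ p = 1 := h82t_pow_eq_one_of_pgroup h P.2 hu
    have hcu := h82t_card_fix_of_pow h hu1 hup
    obtain ⟨y, hy⟩ := Finset.card_eq_one.1 hcu
    have hx₀y : x₀ = y := by
      have : x₀ ∈ h82t_fix X u := h82t_mem_fix.2 (hx₀ u hu)
      rwa [hy, Finset.mem_singleton] at this
    obtain ⟨a, b, hab, hfix⟩ := Finset.card_eq_two.1 hcard
    have hx₀mem : x₀ ∈ h82t_fix X g := h82t_mem_fix.2 hg
    have key : ∀ z, z ∈ h82t_fix X g → z = x₀ := by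
      intro z hz
      have hz' : u • z ∈ h82t_fix X g := by
        rw [h82t_mem_fix] at hz ⊢
        rw [← mul_smul, hgu, mul_smul, hz]
      by_contra hne
      -- fix g = {x₀, z}
      have hfz : ∀ w, w ∈ h82t_fix X g → w = x₀ ∨ w = z := by
        intro w hw
        rw [hfix] at hw hz hx₀mem
        simp only [Finset.mem_insert, Finset.mem_singleton] at hw hz hx₀mem
        rcases hw with rfl | rfl <;> rcases hz with rfl | rfl <;> rcases hx₀mem with h1 | h1 <;>
          first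
          | exact Or.inl h1.symm
          | exact Or.inr rfl
          | exact Or.inl rfl
          | (exfalso; exact hne h1.symm)
      rcases hfz _ hz' with h1 | h1
      · -- u • z = x₀ = u • x₀
        have : u • z = u • x₀ := by rw [h1, hx₀ u hu]
        exact hne (smul_left_cancel u this)
      · have : z ∈ h82t_fix X u := h82t_mem_fix.2 h1
        rw [hy, Finset.mem_singleton] at this
        exact hne (this.trans hx₀y.symm)
    have ha : a = x₀ := key a (by rw [hfix]; simp)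
    have hb : b = x₀ := key b (by rw [hfix]; simp)
    exact hab (ha.trans hb.symm)

/-- `#B ≤ q (q - 1)` -/
theorem h82t_card_stab_le (h : H82tAct Γ X p) (P : Sylow p Γ) (hP : (P : Subgroup Γ) ≠ ⊥)
    {x₀ : X} (hx₀ : ∀ g ∈ P, g • x₀ = x₀) :
    Nat.card (MulAction.stabilizer Γ x₀) ≤ Nat.card P * (Nat.card P - 1) := by
  have hU := h82t_U_eq h P hx₀
  obtain ⟨u, hu, hu1⟩ : ∃ u : Γ, u ∈ (P : Subgroup Γ) ∧ u ≠ 1 := by
    obtain ⟨a, ha⟩ := (Subgroup.ne_bot_iff_exists_ne_one).1 hP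
    exact ⟨a.1, a.2, fun h0 => ha (Subtype.ext h0)⟩
  set Bf : Finset Γ := Finset.univ.filter (fun g : Γ => g • x₀ = x₀) with hBf
  set Pf : Finset Γ := Finset.univ.filter (fun g : Γ => g ∈ (P : Subgroup Γ)) with hPf
  have hBcard : Nat.card (MulAction.stabilizer Γ x₀) = Bf.card := by
    rw [Nat.card_eq_fintype_card, Fintype.card_subtype]
    rfl
  have hPcard : Nat.card P = Pf.card := by
    rw [Nat.card_eq_fintype_card, Fintype.card_subtype]
  rw [hBcard]
  -- conjugates of u by B lie in P \ {1}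
  have himg : Bf.image (fun g => g * u * g⁻¹) ⊆ Pf.erase 1 := by
    intro v hv
    obtain ⟨g, hg, rfl⟩ := Finset.mem_image.1 hv
    rw [hBf, Finset.mem_filter] at hg
    rw [Finset.mem_erase, hPf, Finset.mem_filter]
    refine ⟨fun h0 => hu1 ?_, Finset.mem_univ _, ?_⟩
    · have := congrArg (fun z => g⁻¹ * z * g) h0
      simpa [mul_assoc] using this
    · have h1 : u ∈ h82t_U h x₀ := by rw [hU]; exact hu
      have h2 := (h82t_smul_U h x₀ g u).1 h1
      rw [hg.2, hU] at h2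
      exact h2
  have hfib : ∀ v ∈ Bf.image (fun g => g * u * g⁻¹),
      (Bf.filter fun g => g * u * g⁻¹ = v).card ≤ Pf.card := by
    intro v hv
    obtain ⟨g₀, hg₀, rfl⟩ := Finset.mem_image.1 hv
    rw [hBf, Finset.mem_filter] at hg₀
    apply Finset.card_le_card_of_injOn (fun g => g₀⁻¹ * g)
    · intro g hg
      simp only [Finset.coe_filter, Set.mem_ofPred_eq, hBf, Finset.mem_filter, Finset.mem_univ,
        true_and] at hg
      simp only [hPf, Finset.coe_filter, Finset.mem_univ, true_and, Set.mem_ofPred_eq]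
      apply h82t_centralizer_le h P hx₀ hu hu1
      · rw [mul_smul, hg.1, inv_smul_eq_iff, hg₀.2]
      · have h3 := hg.2
        -- g u g⁻¹ = g₀ u g₀⁻¹
        have h4 : g₀⁻¹ * (g * u * g⁻¹) * g = g₀⁻¹ * (g₀ * u * g₀⁻¹) * g := by rw [h3]
        have h5 : g₀⁻¹ * (g * u * g⁻¹) * g = g₀⁻¹ * g * u := by group
        have h6 : g₀⁻¹ * (g₀ * u * g₀⁻¹) * g = u * (g₀⁻¹ * g) := by group
        rw [h5, h6] at h4
        exact h4
    · intro a _ b _ hab
      exact mul_left_cancel hab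
  have h1 := Finset.card_le_mul_card_image Bf Pf.card hfib
  have h2 := Finset.card_le_card himg
  have h3 : (Pf.erase 1).card = Pf.card - 1 :=
    Finset.card_erase_of_mem (by rw [hPf, Finset.mem_filter]; exact ⟨Finset.mem_univ _, one_mem _⟩)
  rw [hPcard]
  calc Bf.card ≤ Pf.card * (Bf.image (fun g => g * u * g⁻¹)).card := h1
    _ ≤ Pf.card * (Pf.card - 1) := Nat.mul_le_mul_left _ (h3 ▸ h2)

end Fermat.Agent.S56T
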